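/-
S21 (D1), linear algebra part.  A group `G` acts on a finite set `X`; `S R T : G`.
We bound the dimension of the space `Z` of pairs `(a, r)` of functions on `X` with
`a + a∘S = 0`, `r + r∘R + r∘R² = 0` and all `T`-orbit sums of `r - a∘T` equal to zero.
-/
import Mathlib
import Fermat.Agent.S20.PermEigen

set_option autoImplicit false
set_option linter.unusedSectionVars false

noncomputable section

namespace Fermat.Agent.S21

open Module

section LinAlg

variable {G : Type*} [Group G] {X : Type} [Fintype X] [DecidableEq X] [MulAction G X]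

/-- pull back functions along the action of `g`. -/
def pullL (g : G) : (X → ℂ) →ₗ[ℂ] (X → ℂ) :=
  LinearMap.funLeft ℂ ℂ (fun x => g • x)

@[simp] lemma pullL_apply (g : G) (f : X → ℂ) (x : X) : pullL g f x = f (g • x) := rfl

/-- The orbit space of `T`. -/
abbrev OrbT (T : G) (X : Type) [MulAction G X] : Type :=
  MulAction.orbitRel.Quotient (Subgroup.zpowers T) X

/-- class of a point in the orbit space of `T`. -/
def orbMk (T : G) (x : X) : OrbT T X := Quotient.mk'' x

lemma orbMk_smul (T : G) (x : X) : orbMk T (T • x) = orbMk T x := by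
  apply Quotient.sound'
  refine ⟨⟨T, Subgroup.mem_zpowers T⟩, rfl⟩

lemma orbMk_surjective (T : G) : Function.Surjective (orbMk (X := X) T) :=
  Quotient.mk''_surjective

open Classical in
/-- Orbit sums. -/
def orbSum (T : G) : (X → ℂ) →ₗ[ℂ] (OrbT T X → ℂ) where
  toFun t := fun ω => ∑ x, if orbMk T x = ω then t x else 0
  map_add' s t := by
    funext ω
    simp only [Pi.add_apply]
    rw [← Finset.sum_add_distrib]
    refine Finset.sum_congr rfl fun x _ => ?_
    split_ifs <;> simp
  map_smul' c t := by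
    funext ω
    simp only [Pi.smul_apply, smul_eq_mul, RingHom.id_apply]
    rw [Finset.mul_sum]
    refine Finset.sum_congr rfl fun x _ => ?_
    split_ifs <;> simp

open Classical in
lemma orbSum_apply (T : G) (t : X → ℂ) (ω : OrbT T X) :
    orbSum T t ω = ∑ x, if orbMk T x = ω then t x else 0 := rfl

/-- The space `A` of `S`-anti-invariant functions. -/
def spaceA (S : G) : Submodule ℂ (X → ℂ) := LinearMap.ker (pullL S + LinearMap.id)

/-- The space `B`: kernel of `1 + R + R²`. -/
def spaceB (R : G) : Submodule ℂ (X → ℂ) :=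
  LinearMap.ker (LinearMap.id + pullL R + pullL R ∘ₗ pullL R)

lemma mem_spaceA {S : G} {a : X → ℂ} : a ∈ spaceA S ↔ ∀ x, a (S • x) + a x = 0 := by
  simp only [spaceA, LinearMap.mem_ker]
  constructor
  · intro h x
    have := congrFun h x
    simpa using this
  · intro h
    funext x
    simpa using h x

lemma mem_spaceB {R : G} {r : X → ℂ} :
    r ∈ spaceB R ↔ ∀ x, r x + r (R • x) + r (R • R • x) = 0 := by
  simp only [spaceB, LinearMap.mem_ker]
  constructor
  · intro h x
    have := congrFun h x
    simpa using this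
  · intro h
    funext x
    simpa using h x

/-- The constraint map `(a, r) ↦ orbit sums of r - a∘T` on `A × B`. -/
def psiMap (S R T : G) :
    (spaceA (X := X) S × spaceB (X := X) R) →ₗ[ℂ] (OrbT T X → ℂ) :=
  (orbSum T) ∘ₗ
    ((spaceB R).subtype ∘ₗ LinearMap.snd ℂ _ _ -
      pullL T ∘ₗ (spaceA S).subtype ∘ₗ LinearMap.fst ℂ _ _)

lemma psiMap_apply (S R T : G) (p : spaceA (X := X) S × spaceB (X := X) R) :
    psiMap S R T p = orbSum T ((p.2 : X → ℂ) - pullL T (p.1 : X → ℂ)) := rfl

/-- The space `Z`. -/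
def spaceZ (S R T : G) : Submodule ℂ ((X → ℂ) × (X → ℂ)) where
  carrier := {p | p.1 ∈ spaceA S ∧ p.2 ∈ spaceB R ∧ orbSum T (p.2 - pullL T p.1) = 0}
  zero_mem' := by
    refine ⟨Submodule.zero_mem _, Submodule.zero_mem _, ?_⟩
    simp
  add_mem' := by
    rintro p q ⟨hp1, hp2, hp3⟩ ⟨hq1, hq2, hq3⟩
    refine ⟨Submodule.add_mem _ hp1 hq1, Submodule.add_mem _ hp2 hq2, ?_⟩
    have : (p + q).2 - pullL T (p + q).1 = (p.2 - pullL T p.1) + (q.2 - pullL T q.1) := by
      simp only [Prod.snd_add, Prod.fst_add, map_add]; abel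
    rw [this, map_add, hp3, hq3, add_zero]
  smul_mem' := by
    rintro c p ⟨hp1, hp2, hp3⟩
    refine ⟨Submodule.smul_mem _ c hp1, Submodule.smul_mem _ c hp2, ?_⟩
    have : (c • p).2 - pullL T (c • p).1 = c • (p.2 - pullL T p.1) := by
      simp only [Prod.smul_snd, Prod.smul_fst, map_smul, smul_sub]
    rw [this, map_smul, hp3, smul_zero]

lemma mem_spaceZ {S R T : G} {p : (X → ℂ) × (X → ℂ)} :
    p ∈ spaceZ S R T ↔ p.1 ∈ spaceA S ∧ p.2 ∈ spaceB R ∧ orbSum T (p.2 - pullL T p.1) = 0 :=
  Iff.rfl

/-! ### Step 1, 2: dimensions of `A` and `B` -/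

lemma finrank_spaceA_le (S : G) (hS : ∀ x : X, S • S • x = x) :
    2 * finrank ℂ (spaceA (X := X) S) + Fintype.card {x : X // S • x = x} ≤ Fintype.card X := by
  have hσ : MulAction.toPerm S * MulAction.toPerm S = (1 : Equiv.Perm X) := by
    ext x; simp [hS]
  have h := Fermat.Agent.S20.finrank_permEigen_two_neg_one (MulAction.toPerm S : Equiv.Perm X) hσ
  have hle : spaceA (X := X) S ≤ Fermat.Agent.S20.permEigen (MulAction.toPerm S) (-1) := by
    intro a ha
    rw [mem_spaceA] at ha
    intro x
    have := ha x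
    simp only [MulAction.toPerm_apply]
    linear_combination this
  have h2 := Submodule.finrank_mono hle
  have h3 : Fintype.card {x : X // (MulAction.toPerm S) x = x}
      = Fintype.card {x : X // S • x = x} := rfl
  omega

lemma finrank_spaceB_le (R : G) (hR : ∀ x : X, R • R • R • x = x) :
    3 * finrank ℂ (spaceB (X := X) R) + 2 * Fintype.card {x : X // R • x = x}
      ≤ 2 * Fintype.card X := by
  have hσ : MulAction.toPerm R * MulAction.toPerm R * MulAction.toPerm R = (1 : Equiv.Perm X) := by
    ext x; simp [hR]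
  have h := Fermat.Agent.S20.finrank_permEigen_three_one (MulAction.toPerm R : Equiv.Perm X) hσ
  set N : (X → ℂ) →ₗ[ℂ] (X → ℂ) := LinearMap.id + pullL R + pullL R ∘ₗ pullL R with hN
  have hle : Fermat.Agent.S20.permEigen (MulAction.toPerm R) 1 ≤ LinearMap.range N := by
    intro v hv
    have hv' : ∀ x, v (R • x) = v x := by
      intro x
      have := hv x
      simpa using this
    refine ⟨(3 : ℂ)⁻¹ • v, ?_⟩
    funext x
    simp only [hN, LinearMap.add_apply, LinearMap.id_coe, id_eq, LinearMap.coe_comp,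
      Function.comp_apply, Pi.add_apply, pullL_apply, Pi.smul_apply, smul_eq_mul, hv']
    ring
  have h2 := Submodule.finrank_mono hle
  have h3 := LinearMap.finrank_range_add_finrank_ker N
  have h4 : finrank ℂ (X → ℂ) = Fintype.card X := Module.finrank_fintype_fun_eq_card ℂ
  have h5 : Fintype.card {x : X // (MulAction.toPerm R) x = x}
      = Fintype.card {x : X // R • x = x} := rfl
  have h6 : finrank ℂ (LinearMap.ker N) = finrank ℂ (spaceB (X := X) R) := rfl
  omega

/-! ### Step 3: `Z` versus the kernel of `psiMap` -/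

lemma finrank_spaceZ_le (S R T : G) :
    finrank ℂ (spaceZ (X := X) S R T) + finrank ℂ (LinearMap.range (psiMap (X := X) S R T))
      ≤ finrank ℂ (spaceA (X := X) S) + finrank ℂ (spaceB (X := X) R) := by
  have h1 := LinearMap.finrank_range_add_finrank_ker (psiMap (X := X) S R T)
  rw [Module.finrank_prod] at h1
  -- the map `Z → ker psiMap`
  let j : spaceZ (X := X) S R T →ₗ[ℂ] (spaceA (X := X) S × spaceB (X := X) R) :=
    LinearMap.prod
      (LinearMap.codRestrict (spaceA S) (LinearMap.fst ℂ _ _ ∘ₗ (spaceZ S R T).subtype)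
        (fun p => p.2.1))
      (LinearMap.codRestrict (spaceB R) (LinearMap.snd ℂ _ _ ∘ₗ (spaceZ S R T).subtype)
        (fun p => p.2.2.1))
  have hj : Function.Injective j := by
    intro p q hpq
    have h1 := congrArg (fun z => (z.1 : X → ℂ)) hpq
    have h2 := congrArg (fun z => (z.2 : X → ℂ)) hpq
    apply Subtype.ext
    exact Prod.ext h1 h2
  have hjr : LinearMap.range j ≤ LinearMap.ker (psiMap (X := X) S R T) := by
    rintro _ ⟨p, rfl⟩
    rw [LinearMap.mem_ker, psiMap_apply]
    exact p.2.2.2
  have h2 : finrank ℂ (spaceZ (X := X) S R T) = finrank ℂ (LinearMap.range j) :=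
    (LinearMap.finrank_range_of_inj hj).symm
  have h3 := Submodule.finrank_mono hjr
  omega

end LinAlg

end Fermat.Agent.S21
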