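/-
S21 (D1), group part.  For a finite index subgroup `Γ ≤ G` and `S T : G` we embed the space of
homomorphisms `Γ → ℂ` vanishing on the conjugates of powers of `T` (together with the functions
on `X = G ⧸ Γ`) into the space `Z × ℂ` of `GroupLinAlg.lean`.
-/
import Mathlib
import Fermat.Agent.S21.GroupLinAlg

set_option autoImplicit false
set_option linter.unusedSectionVars false

noncomputable section

namespace Fermat.Agent.S21

open Module

section Cocycle

variable {G : Type} [Group G] (Γ : Subgroup G)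

/-- Homomorphisms `Γ → ℂ` vanishing on all conjugates of powers of `T` lying in `Γ`. -/
def absPar (T : G) : Submodule ℂ (Additive Γ →+ ℂ) where
  carrier := {φ | ∀ (g : G) (m : ℕ) (h : g⁻¹ * T ^ m * g ∈ Γ), φ (Additive.ofMul ⟨_, h⟩) = 0}
  zero_mem' := fun _ _ _ => rfl
  add_mem' := by
    intro φ ψ hφ hψ g m h
    show φ _ + ψ _ = 0
    rw [hφ g m h, hψ g m h, add_zero]
  smul_mem' := by
    intro c φ hφ g m h
    show c • φ _ = 0
    rw [hφ g m h, smul_zero]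

lemma mem_absPar {T : G} {φ : Additive Γ →+ ℂ} :
    φ ∈ absPar Γ T ↔
      ∀ (g : G) (m : ℕ) (h : g⁻¹ * T ^ m * g ∈ Γ), φ (Additive.ofMul ⟨_, h⟩) = 0 := Iff.rfl

lemma out_inv_mul_mem (g : G) : (Quotient.out (g : G ⧸ Γ))⁻¹ * g ∈ Γ := by
  rw [← QuotientGroup.eq]
  exact QuotientGroup.out_eq' _

/-- the `Γ`-part of `g` with respect to the chosen coset representatives. -/
def gammaPart (g : G) : Γ := ⟨(Quotient.out (g : G ⧸ Γ))⁻¹ * g, out_inv_mul_mem Γ g⟩

lemma gammaPart_mul (g : G) (γ : Γ) : gammaPart Γ (g * γ) = gammaPart Γ g * γ := by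
  apply Subtype.ext
  have h : ((g * γ : G) : G ⧸ Γ) = (g : G ⧸ Γ) := by
    rw [QuotientGroup.eq]
    simp
  simp only [gammaPart, h, Subgroup.coe_mul, mul_assoc]

/-- the equivariant primitive attached to `(φ, v)`. -/
def primU (φ : Additive Γ →+ ℂ) (v : G ⧸ Γ → ℂ) (g : G) : ℂ :=
  φ (Additive.ofMul (gammaPart Γ g)) + v (g : G ⧸ Γ)

lemma primU_mul (φ : Additive Γ →+ ℂ) (v : G ⧸ Γ → ℂ) (g : G) (γ : Γ) :
    primU Γ φ v (g * γ) = primU Γ φ v g + φ (Additive.ofMul γ) := by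
  have h : ((g * γ : G) : G ⧸ Γ) = (g : G ⧸ Γ) := by
    rw [QuotientGroup.eq]
    simp
  simp only [primU, gammaPart_mul, h, ofMul_mul, map_add]
  ring

lemma primU_mul' (φ : Additive Γ →+ ℂ) (v : G ⧸ Γ → ℂ) (g γ : G) (hγ : γ ∈ Γ) :
    primU Γ φ v (g * γ) = primU Γ φ v g + φ (Additive.ofMul ⟨γ, hγ⟩) :=
  primU_mul Γ φ v g ⟨γ, hγ⟩

/-- the cochain `x ↦ u (s g) - u g`, `g ∈ x`. -/
def dC (s : G) (φ : Additive Γ →+ ℂ) (v : G ⧸ Γ → ℂ) (x : G ⧸ Γ) : ℂ :=
  primU Γ φ v (s * Quotient.out x) - primU Γ φ v (Quotient.out x)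

lemma dC_mk (s : G) (φ : Additive Γ →+ ℂ) (v : G ⧸ Γ → ℂ) (g : G) :
    dC Γ s φ v (g : G ⧸ Γ) = primU Γ φ v (s * g) - primU Γ φ v g := by
  have hg : g = Quotient.out (g : G ⧸ Γ) * (gammaPart Γ g : G) := by
    simp [gammaPart]
  have h1 := primU_mul Γ φ v (Quotient.out (g : G ⧸ Γ)) (gammaPart Γ g)
  have h2 := primU_mul Γ φ v (s * Quotient.out (g : G ⧸ Γ)) (gammaPart Γ g)
  rw [mul_assoc, ← hg] at h2
  rw [← hg] at h1
  rw [dC, h1, h2]
  ring

lemma dC_smul_mk (s : G) (φ : Additive Γ →+ ℂ) (v : G ⧸ Γ → ℂ) (h g : G) :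
    dC Γ s φ v (h • (g : G ⧸ Γ)) = primU Γ φ v (s * (h * g)) - primU Γ φ v (h * g) := by
  have : h • (g : G ⧸ Γ) = ((h * g : G) : G ⧸ Γ) := rfl
  rw [this, dC_mk]

lemma dC_mul (s t : G) (φ : Additive Γ →+ ℂ) (v : G ⧸ Γ → ℂ) (x : G ⧸ Γ) :
    dC Γ (s * t) φ v x = dC Γ s φ v (t • x) + dC Γ t φ v x := by
  obtain ⟨g, rfl⟩ := QuotientGroup.mk_surjective x
  rw [dC_smul_mk, dC_mk, dC_mk, mul_assoc]
  ring

lemma dC_add (s : G) (φ ψ : Additive Γ →+ ℂ) (v w : G ⧸ Γ → ℂ) :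
    dC Γ s (φ + ψ) (v + w) = dC Γ s φ v + dC Γ s ψ w := by
  funext x
  simp only [dC, primU, AddMonoidHom.add_apply, Pi.add_apply]
  ring

lemma dC_smul (s : G) (c : ℂ) (φ : Additive Γ →+ ℂ) (v : G ⧸ Γ → ℂ) :
    dC Γ s (c • φ) (c • v) = c • dC Γ s φ v := by
  funext x
  simp only [dC, primU, AddMonoidHom.smul_apply, Pi.smul_apply, smul_eq_mul]
  ring

/-- the main linear map `(φ, v) ↦ ((D_S u, D_R u), v(1))`. -/
def thetaMap (S R T : G) :
    (absPar Γ T × (G ⧸ Γ → ℂ)) →ₗ[ℂ] ((G ⧸ Γ → ℂ) × (G ⧸ Γ → ℂ)) × ℂ where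
  toFun p := ((dC Γ S p.1.1 p.2, dC Γ R p.1.1 p.2), p.2 ((1 : G) : G ⧸ Γ))
  map_add' p q := by
    simp only [Prod.fst_add, Prod.snd_add, Submodule.coe_add, dC_add, Pi.add_apply, Prod.mk_add_mk]
  map_smul' c p := by
    simp only [Prod.smul_fst, Prod.smul_snd, Submodule.coe_smul, dC_smul, Pi.smul_apply,
      Prod.smul_mk, RingHom.id_apply]

lemma thetaMap_apply (S R T : G) (p : absPar Γ T × (G ⧸ Γ → ℂ)) :
    thetaMap Γ S R T p = ((dC Γ S p.1.1 p.2, dC Γ R p.1.1 p.2), p.2 ((1 : G) : G ⧸ Γ)) := rfl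

/-- Injectivity of `thetaMap`. -/
theorem thetaMap_injective (S T : G) (hgen : Subgroup.closure {S, T} = (⊤ : Subgroup G)) :
    Function.Injective (thetaMap Γ S (S * T) T) := by
  rw [← LinearMap.ker_eq_bot, LinearMap.ker_eq_bot']
  rintro ⟨⟨φ, hφ⟩, v⟩ h
  rw [thetaMap_apply] at h
  simp only [Prod.mk_eq_zero] at h
  obtain ⟨⟨hS, hR⟩, h1⟩ := h
  set u := primU Γ φ v with hu
  -- invariance under S and R
  have hSu : ∀ g, u (S * g) = u g := by
    intro g
    have := congrFun hS (g : G ⧸ Γ)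
    rw [dC_mk] at this
    simpa [sub_eq_zero] using this
  have hRu : ∀ g, u (S * T * g) = u g := by
    intro g
    have := congrFun hR (g : G ⧸ Γ)
    rw [dC_mk] at this
    simpa [sub_eq_zero] using this
  have hTu : ∀ g, u (T * g) = u g := by
    intro g
    rw [← hSu (T * g), ← mul_assoc, hRu]
  -- the stabilizer subgroup
  let H : Subgroup G :=
    { carrier := {h | ∀ g, u (h * g) = u g}
      one_mem' := by intro g; simp
      mul_mem' := by
        intro a b ha hb g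
        rw [mul_assoc, ha, hb]
      inv_mem' := by
        intro a ha g
        have := ha (a⁻¹ * g)
        rw [mul_inv_cancel_left] at this
        exact this.symm }
  have hH : H = ⊤ := by
    rw [eq_top_iff, ← hgen, Subgroup.closure_le]
    rintro x (rfl | rfl)
    · exact hSu
    · exact hTu
  have hconst : ∀ g, u g = u 1 := by
    intro g
    have : g ∈ H := by rw [hH]; trivial
    simpa using this 1
  have hφ0 : φ = 0 := by
    ext γ
    have h2 := primU_mul Γ φ v 1 γ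
    rw [one_mul] at h2
    have h3 := hconst (γ : G)
    rw [← hu] at h2
    rw [h3] at h2
    simpa using h2.symm
  subst hφ0
  have hv : v = 0 := by
    funext x
    obtain ⟨g, rfl⟩ := QuotientGroup.mk_surjective x
    have h3 := hconst g
    simp only [hu, primU, AddMonoidHom.zero_apply, zero_add] at h3
    rw [h3, h1]
    rfl
  subst hv
  rfl

end Cocycle

end Fermat.Agent.S21
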