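/-
S21 (D1), group part II: the image of `thetaMap` lies in `Z × ℂ`.
-/
import Mathlib
import Fermat.Agent.S21.GroupCocycle

set_option autoImplicit false
set_option linter.unusedSectionVars false

noncomputable section

namespace Fermat.Agent.S21

open Module

section Image

variable {G : Type} [Group G] (Γ : Subgroup G) [Fintype (G ⧸ Γ)] [DecidableEq (G ⧸ Γ)]

lemma dC_central (z : G) (hzc : ∀ g, z * g = g * z) (hzΓ : z ∈ Γ) (hz2 : z * z = 1)
    (φ : Additive Γ →+ ℂ) (v : G ⧸ Γ → ℂ) (x : G ⧸ Γ) : dC Γ z φ v x = 0 := by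
  obtain ⟨g, rfl⟩ := QuotientGroup.mk_surjective x
  rw [dC_mk, hzc, primU_mul' Γ φ v g z hzΓ]
  have h1 : φ (Additive.ofMul (⟨z, hzΓ⟩ : Γ)) + φ (Additive.ofMul (⟨z, hzΓ⟩ : Γ)) = 0 := by
    rw [← map_add, ← ofMul_mul]
    have : (⟨z, hzΓ⟩ : Γ) * ⟨z, hzΓ⟩ = 1 := Subtype.ext hz2
    rw [this]
    simp
  have h2 : φ (Additive.ofMul (⟨z, hzΓ⟩ : Γ)) = 0 := by
    have : (2 : ℂ) * φ (Additive.ofMul (⟨z, hzΓ⟩ : Γ)) = 0 := by linear_combination h1
    simpa using this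
  rw [h2]
  ring

lemma dC_S_mem (S z : G) (hS : S * S = z) (hzc : ∀ g, z * g = g * z) (hzΓ : z ∈ Γ)
    (hz2 : z * z = 1) (φ : Additive Γ →+ ℂ) (v : G ⧸ Γ → ℂ) :
    dC Γ S φ v ∈ spaceA (X := G ⧸ Γ) S := by
  rw [mem_spaceA]
  intro x
  rw [← dC_mul, hS, dC_central Γ z hzc hzΓ hz2]

lemma dC_R_mem (R z : G) (hR : R * R * R = z) (hzc : ∀ g, z * g = g * z) (hzΓ : z ∈ Γ)
    (hz2 : z * z = 1) (φ : Additive Γ →+ ℂ) (v : G ⧸ Γ → ℂ) :
    dC Γ R φ v ∈ spaceB (X := G ⧸ Γ) R := by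
  rw [mem_spaceB]
  intro x
  have h := dC_central Γ z hzc hzΓ hz2 φ v x
  rw [← hR, dC_mul, dC_mul] at h
  rw [← h, smul_smul]
  ring

/-- telescoping along a `T`-orbit. -/
lemma sum_range_dC_T (T : G) (φ : Additive Γ →+ ℂ) (v : G ⧸ Γ → ℂ) (g : G) (m : ℕ) :
    ∑ i ∈ Finset.range m, dC Γ T φ v (T ^ i • (g : G ⧸ Γ))
      = primU Γ φ v (T ^ m * g) - primU Γ φ v g := by
  induction m with
  | zero => simp
  | succ m ih =>
    rw [Finset.sum_range_succ, ih, dC_smul_mk, pow_succ', mul_assoc]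
    ring

lemma primU_pow_mul_of_fixed (T : G) (φ : Additive Γ →+ ℂ) (hφ : φ ∈ absPar Γ T)
    (v : G ⧸ Γ → ℂ) (g : G) (m : ℕ) (hm : T ^ m • (g : G ⧸ Γ) = (g : G ⧸ Γ)) :
    primU Γ φ v (T ^ m * g) = primU Γ φ v g := by
  have hmem : g⁻¹ * T ^ m * g ∈ Γ := by
    have : ((T ^ m * g : G) : G ⧸ Γ) = (g : G ⧸ Γ) := hm
    rw [eq_comm, QuotientGroup.eq] at this
    rwa [mul_assoc]
  have h1 := primU_mul' Γ φ v g _ hmem
  rw [mem_absPar] at hφ
  rw [hφ g m hmem, add_zero] at h1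
  rw [← h1]
  congr 1
  group

open Classical in
/-- the fibre of `orbMk T` through `x` is the image of `i ↦ T ^ i • x`, `i < minimal period`. -/
lemma filter_orbMk_eq (T : G) (x : G ⧸ Γ) :
    (Finset.univ.filter fun y : G ⧸ Γ => orbMk T y = orbMk T x)
      = (Finset.range (Function.minimalPeriod (T • · : G ⧸ Γ → G ⧸ Γ) x)).image
          (fun i => T ^ i • x) := by
  have hpos : 0 < Function.minimalPeriod (T • · : G ⧸ Γ → G ⧸ Γ) x :=
    Function.minimalPeriod_pos_of_mem_periodicPts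
      ((MulAction.injective T).mem_periodicPts x)
  ext y
  simp only [Finset.mem_filter, Finset.mem_univ, true_and, Finset.mem_image, Finset.mem_range]
  constructor
  · intro h
    have h' : y ∈ MulAction.orbit (Subgroup.zpowers T) x := by
      have := Quotient.exact' h
      exact this
    obtain ⟨⟨t, ht⟩, rfl⟩ := h'
    obtain ⟨k, rfl⟩ := Subgroup.mem_zpowers_iff.mp ht
    set m := Function.minimalPeriod (T • · : G ⧸ Γ → G ⧸ Γ) x with hm
    have hm0 : (0 : ℤ) < (m : ℤ) := by exact_mod_cast hpos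
    refine ⟨(k % (m : ℤ)).toNat, ?_, ?_⟩
    · have := Int.emod_lt_of_pos k hm0
      have h0 := Int.emod_nonneg k hm0.ne'
      omega
    · have h0 := Int.emod_nonneg k hm0.ne'
      have h1 := MulAction.zpow_smul_mod_minimalPeriod (a := T) (b := x) k
      have h2 : T ^ (k % (m : ℤ)).toNat = T ^ (k % (m : ℤ)) := by
        rw [← zpow_natCast, Int.toNat_of_nonneg h0]
      rw [h2]
      exact h1
  · rintro ⟨i, -, rfl⟩
    apply Quotient.sound'
    exact ⟨⟨T ^ i, Subgroup.pow_mem _ (Subgroup.mem_zpowers T) i⟩, rfl⟩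

lemma orbSum_dC_T (T : G) (φ : Additive Γ →+ ℂ) (hφ : φ ∈ absPar Γ T) (v : G ⧸ Γ → ℂ) :
    orbSum T (dC Γ T φ v) = 0 := by
  classical
  funext ω
  obtain ⟨x, rfl⟩ := orbMk_surjective T ω
  obtain ⟨g, rfl⟩ := QuotientGroup.mk_surjective x
  rw [orbSum_apply, ← Finset.sum_filter]
  have hfil := filter_orbMk_eq Γ T (g : G ⧸ Γ)
  have hfil' : (Finset.univ.filter fun y : G ⧸ Γ => orbMk T y = orbMk T (g : G ⧸ Γ))
      = (Finset.range (Function.minimalPeriod (T • · : G ⧸ Γ → G ⧸ Γ) (g : G ⧸ Γ))).image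
          (fun i => T ^ i • (g : G ⧸ Γ)) := by
    convert hfil
  rw [hfil', Finset.sum_image]
  · rw [sum_range_dC_T, primU_pow_mul_of_fixed Γ T φ hφ v g]
    · simp
    · have := Function.isPeriodicPt_minimalPeriod (T • · : G ⧸ Γ → G ⧸ Γ) (g : G ⧸ Γ)
      rw [Function.IsPeriodicPt, Function.IsFixedPt, smul_iterate_apply] at this
      exact this
  · intro i hi j hj hij
    have := Function.iterate_injOn_Iio_minimalPeriod (f := (T • · : G ⧸ Γ → G ⧸ Γ))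
      (x := (g : G ⧸ Γ)) (Finset.mem_range.mp hi) (Finset.mem_range.mp hj)
    apply this
    simp only [smul_iterate_apply]
    exact hij

/-- The image of `thetaMap` lies in `Z × ℂ`. -/
theorem thetaMap_mem (S T z : G) (hS : S * S = z) (hR : (S * T) * (S * T) * (S * T) = z)
    (hzc : ∀ g, z * g = g * z) (hzΓ : z ∈ Γ) (hz2 : z * z = 1)
    (p : absPar Γ T × (G ⧸ Γ → ℂ)) :
    (thetaMap Γ S (S * T) T p).1 ∈ spaceZ (X := G ⧸ Γ) S (S * T) T := by
  rw [thetaMap_apply, mem_spaceZ]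
  refine ⟨dC_S_mem Γ S z hS hzc hzΓ hz2 _ _, dC_R_mem Γ (S * T) z hR hzc hzΓ hz2 _ _, ?_⟩
  have : dC Γ (S * T) p.1.1 p.2 - pullL T (dC Γ S p.1.1 p.2) = dC Γ T p.1.1 p.2 := by
    funext x
    simp only [Pi.sub_apply, pullL_apply, dC_mul]
    ring
  simp only
  rw [this]
  exact orbSum_dC_T Γ T p.1.1 p.1.2 p.2

end Image

end Fermat.Agent.S21
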