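/-
S21 (D1): the abstract dimension bound for "parabolic" homomorphisms, and its specialisation
to `Γ₀(N) ≤ SL(2, ℤ)`.
-/
import Mathlib
import Fermat.Agent.S21.GroupImage
import Fermat.Prelude.Def_ModularCurve_PeriodMap

set_option autoImplicit false
set_option linter.unusedSectionVars false

noncomputable section

namespace Fermat.Agent.S21

open Module

section AbsBound

variable {G : Type} [Group G] (Γ : Subgroup G) [Fintype (G ⧸ Γ)] [DecidableEq (G ⧸ Γ)]

/-- `thetaMap` corestricted to `Z × ℂ`. -/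
def thetaMapZ (S T z : G) (hS : S * S = z) (hR : (S * T) * (S * T) * (S * T) = z)
    (hzc : ∀ g, z * g = g * z) (hzΓ : z ∈ Γ) (hz2 : z * z = 1) :
    (absPar Γ T × (G ⧸ Γ → ℂ)) →ₗ[ℂ] (spaceZ (X := G ⧸ Γ) S (S * T) T × ℂ) :=
  LinearMap.prod
    (LinearMap.codRestrict (spaceZ (X := G ⧸ Γ) S (S * T) T)
      (LinearMap.fst ℂ _ _ ∘ₗ thetaMap Γ S (S * T) T)
      (fun p => thetaMap_mem Γ S T z hS hR hzc hzΓ hz2 p))
    (LinearMap.snd ℂ _ _ ∘ₗ thetaMap Γ S (S * T) T)

lemma thetaMapZ_injective (S T z : G) (hS : S * S = z) (hR : (S * T) * (S * T) * (S * T) = z)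
    (hzc : ∀ g, z * g = g * z) (hzΓ : z ∈ Γ) (hz2 : z * z = 1)
    (hgen : Subgroup.closure {S, T} = (⊤ : Subgroup G)) :
    Function.Injective (thetaMapZ Γ S T z hS hR hzc hzΓ hz2) := by
  intro p q hpq
  apply thetaMap_injective Γ S T hgen
  have h1 := congrArg (fun w => (w.1 : (G ⧸ Γ → ℂ) × (G ⧸ Γ → ℂ))) hpq
  have h2 := congrArg (fun w => w.2) hpq
  exact Prod.ext h1 h2

/-- The abstract bound. -/
theorem absPar_bound (S T z : G) (hS : S * S = z) (hR : (S * T) * (S * T) * (S * T) = z)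
    (hzc : ∀ g, z * g = g * z) (hzΓ : z ∈ Γ) (hz2 : z * z = 1)
    (hgen : Subgroup.closure {S, T} = (⊤ : Subgroup G))
    (hL4 : Nat.card (OrbT T (G ⧸ Γ))
      ≤ finrank ℂ (LinearMap.range (psiMap (X := G ⧸ Γ) S (S * T) T)) + 1) :
    FiniteDimensional ℂ (absPar Γ T) ∧
      6 * finrank ℂ (absPar Γ T) + 3 * Fintype.card {x : G ⧸ Γ // S • x = x}
        + 4 * Fintype.card {x : G ⧸ Γ // (S * T) • x = x} + 6 * Nat.card (OrbT T (G ⧸ Γ))
        ≤ 12 + Fintype.card (G ⧸ Γ) := by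
  have hinj := thetaMapZ_injective Γ S T z hS hR hzc hzΓ hz2 hgen
  have hfd : FiniteDimensional ℂ (absPar Γ T × (G ⧸ Γ → ℂ)) :=
    FiniteDimensional.of_injective _ hinj
  have hfd1 : FiniteDimensional ℂ (absPar Γ T) := by
    refine FiniteDimensional.of_injective (LinearMap.inl ℂ (absPar Γ T) (G ⧸ Γ → ℂ)) ?_
    exact LinearMap.inl_injective
  refine ⟨hfd1, ?_⟩
  have h1 := LinearMap.finrank_le_finrank_of_injective hinj
  rw [Module.finrank_prod, Module.finrank_prod, Module.finrank_fintype_fun_eq_card,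
    Module.finrank_self] at h1
  have hSx : ∀ x : G ⧸ Γ, S • S • x = x := by
    intro x
    obtain ⟨g, rfl⟩ := QuotientGroup.mk_surjective x
    rw [smul_smul, hS]
    show ((z * g : G) : G ⧸ Γ) = g
    rw [hzc, QuotientGroup.eq]
    simpa using hzΓ
  have hRx : ∀ x : G ⧸ Γ, (S * T) • (S * T) • (S * T) • x = x := by
    intro x
    obtain ⟨g, rfl⟩ := QuotientGroup.mk_surjective x
    rw [smul_smul, smul_smul, hR]
    show ((z * g : G) : G ⧸ Γ) = g
    rw [hzc, QuotientGroup.eq]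
    simpa using hzΓ
  have hA := finrank_spaceA_le (X := G ⧸ Γ) S hSx
  have hB := finrank_spaceB_le (X := G ⧸ Γ) (S * T) hRx
  have hZ := finrank_spaceZ_le (X := G ⧸ Γ) S (S * T) T
  omega

end AbsBound

end Fermat.Agent.S21
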