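import Fermat.Agent.S21.GroupLinAlg

/-!
S21 (D1), sub-lemma L4: the orbit-sum constraint map has rank at least `#orbits - 1`.
-/

set_option autoImplicit false
set_option linter.unusedSectionVars false

namespace Fermat.Agent.S21

open Module

variable {G : Type*} [Group G] {X : Type} [Fintype X] [DecidableEq X] [MulAction G X]

open Classical in
/-- `orbSum T t = ∑ x, t x • e_{[x]}`. -/
lemma orbSum_eq_sum_single (T : G) (t : X → ℂ) :
    orbSum T t = ∑ x, t x • (Pi.single (orbMk T x) (1 : ℂ) : OrbT T X → ℂ) := by
  funext ω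
  rw [orbSum_apply, Finset.sum_apply]
  refine Finset.sum_congr rfl fun x _ => ?_
  by_cases h : orbMk T x = ω
  · subst h; simp
  · simp [h, Ne.symm h]

open Classical in
/-- evaluation of a functional on an orbit sum. -/
lemma dual_orbSum (T : G) (f : Module.Dual ℂ (OrbT T X → ℂ)) (t : X → ℂ) :
    f (orbSum T t) = ∑ x, t x * f (Pi.single (orbMk T x) (1 : ℂ)) := by
  rw [orbSum_eq_sum_single, map_sum]
  refine Finset.sum_congr rfl fun x _ => ?_
  rw [map_smul, smul_eq_mul]

/-- `g - g ∘ S` lies in `spaceA S`. -/
lemma sub_pullL_mem_spaceA (S : G) (hS : ∀ x : X, S • S • x = x) (g : X → ℂ) :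
    g - pullL S g ∈ spaceA (X := X) S := by
  rw [mem_spaceA]
  intro x
  simp only [Pi.sub_apply, pullL_apply, hS]
  ring

theorem card_orbT_le (S R T : G) [MulAction.IsPretransitive G X]
    (hgen : Subgroup.closure {S, T} = (⊤ : Subgroup G)) (hRST : R = S * T)
    (hS : ∀ x : X, S • S • x = x) (hR : ∀ x : X, R • R • R • x = x) :
    Nat.card (OrbT T X) ≤ finrank ℂ (LinearMap.range (psiMap (X := X) S R T)) + 1 := by
  classical
  haveI : Finite (OrbT T X) := Quotient.finite _
  letI : Fintype (OrbT T X) := Fintype.ofFinite _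
  set W := LinearMap.range (psiMap (X := X) S R T) with hW
  have hdual := Subspace.finrank_add_finrank_dualAnnihilator_eq W
  have hcard : finrank ℂ (OrbT T X → ℂ) = Nat.card (OrbT T X) := by
    rw [Module.finrank_fintype_fun_eq_card, Nat.card_eq_fintype_card]
  rw [hcard] at hdual
  suffices h : finrank ℂ W.dualAnnihilator ≤ 1 by omega
  -- empty case
  rcases isEmpty_or_nonempty X with hX | ⟨⟨x₀⟩⟩
  · have : IsEmpty (OrbT T X) := ⟨fun ω => by
      obtain ⟨x, -⟩ := orbMk_surjective T ω; exact hX.elim x⟩
    have : Nat.card (OrbT T X) = 0 := Nat.card_of_isEmpty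
    omega
  -- key: for `f` in the annihilator, `ĉ x = f e_{[x]}` is constant
  have key : ∀ f ∈ W.dualAnnihilator, ∀ x y : X,
      f (Pi.single (orbMk T x) (1 : ℂ)) = f (Pi.single (orbMk T y) (1 : ℂ)) := by
    intro f hf
    rw [Submodule.mem_dualAnnihilator] at hf
    set c : X → ℂ := fun x => f (Pi.single (orbMk T x) (1 : ℂ)) with hc
    have hcT : ∀ x, c (T • x) = c x := fun x => by simp only [hc, orbMk_smul]
    have hcS : ∀ y, c (S • y) = c y := by
      intro y
      -- test vector `a = u - u ∘ S` with `u = δ_y`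
      set u : X → ℂ := Pi.single y 1 with hu
      have ha := sub_pullL_mem_spaceA S hS u
      have h0 := hf (psiMap S R T (⟨u - pullL S u, ha⟩, 0)) ⟨_, rfl⟩
      rw [psiMap_apply, dual_orbSum] at h0
      have h0' : ∑ x, (u (T • x) - u (S • T • x)) * c (T • x) = 0 := by
        have e : ∀ x, (((0 : spaceB (X := X) R) : X → ℂ) -
            pullL T ((⟨u - pullL S u, ha⟩ : spaceA (X := X) S) : X → ℂ)) x *
              f (Pi.single (orbMk T x) (1 : ℂ)) = -((u (T • x) - u (S • T • x)) * c (T • x)) := by
          intro x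
          rw [hcT]
          simp only [Submodule.coe_zero, Pi.sub_apply, Pi.zero_apply, pullL_apply, hc]
          ring
        simp_rw [e] at h0
        rw [Finset.sum_neg_distrib, neg_eq_zero] at h0
        exact h0
      -- reindex along `T`
      have h1 : ∑ x, (u (T • x) - u (S • T • x)) * c (T • x)
          = ∑ x, (u x - u (S • x)) * c x :=
        Equiv.sum_comp (MulAction.toPerm T) (fun x => (u x - u (S • x)) * c x)
      rw [h1] at h0'
      have h2 : ∑ x, (u x - u (S • x)) * c x = c y - c (S • y) := by
        simp only [sub_mul, Finset.sum_sub_distrib]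
        congr 1
        · simp [hu, Pi.single_apply]
        · have h3 : ∑ x, u (S • x) * c x = ∑ x, u (S • S • x) * c (S • x) :=
            (Equiv.sum_comp (MulAction.toPerm S) (fun x => u (S • x) * c x)).symm
          rw [h3]
          simp only [hS]
          simp [hu, Pi.single_apply]
      rw [h2] at h0'
      exact (sub_eq_zero.mp h0').symm
    -- invariance under the whole group
    let H : Subgroup G :=
      { carrier := {g | ∀ x, c (g • x) = c x}
        one_mem' := fun x => by simp
        mul_mem' := fun {a b} ha hb x => by rw [mul_smul, ha, hb]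
        inv_mem' := fun {a} ha x => by
          have := ha (a⁻¹ • x)
          rw [smul_inv_smul] at this
          exact this.symm }
    have hH : H = ⊤ := by
      rw [eq_top_iff, ← hgen, Subgroup.closure_le]
      rintro g (rfl | rfl)
      · exact hcS
      · exact hcT
    intro x y
    obtain ⟨g, rfl⟩ := MulAction.exists_smul_eq G y x
    have : g ∈ H := hH ▸ Subgroup.mem_top g
    exact this y
  -- injective map to `ℂ`
  let Φ : W.dualAnnihilator →ₗ[ℂ] ℂ :=
    (LinearMap.applyₗ (Pi.single (orbMk T x₀) (1 : ℂ) : OrbT T X → ℂ)) ∘ₗ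
      W.dualAnnihilator.subtype
  have hΦ : Function.Injective Φ := by
    rw [← LinearMap.ker_eq_bot, LinearMap.ker_eq_bot']
    rintro ⟨f, hf⟩ h0
    have h0' : f (Pi.single (orbMk T x₀) (1 : ℂ)) = 0 := h0
    apply Subtype.ext
    show f = 0
    refine LinearMap.pi_ext' fun ω => ?_
    obtain ⟨x, rfl⟩ := orbMk_surjective T ω
    refine LinearMap.ext_ring ?_
    simp only [LinearMap.coe_comp, LinearMap.coe_single, Function.comp_apply,
      LinearMap.zero_apply]
    rw [key f hf x x₀, h0']
  have := LinearMap.finrank_le_finrank_of_injective hΦ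
  simpa using this

end Fermat.Agent.S21
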