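/-
S21 (D1): specialisation of the abstract bound to subgroups of `SL(2, ℤ)`.
-/
import Mathlib
import Fermat.Agent.S21.GroupBound
import Fermat.Agent.S21.GroupRank
import Fermat.Prelude.Def_ModularCurve_PeriodMap

set_option autoImplicit false
set_option linter.unusedSectionVars false

noncomputable section

namespace Fermat.Agent.S21

open Module
open scoped MatrixGroups

section SL2

lemma trace_conj_T_pow (g : SL(2, ℤ)) (m : ℕ) :
    ((g⁻¹ * ModularGroup.T ^ m * g : SL(2, ℤ)) : Matrix (Fin 2) (Fin 2) ℤ).trace = 2 := by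
  rw [Matrix.SpecialLinearGroup.coe_mul, Matrix.trace_mul_comm,
    ← Matrix.SpecialLinearGroup.coe_mul, ← mul_assoc, mul_inv_cancel, one_mul,
    ← zpow_natCast, ModularGroup.coe_T_zpow, Matrix.trace_fin_two_of]
  norm_num

lemma parabolicHoms_le_absPar (Γ : Subgroup SL(2, ℤ)) :
    ModularCurve.Period.parabolicHoms ℂ Γ ℂ ≤ absPar Γ ModularGroup.T := by
  intro φ hφ g m h
  apply hφ ⟨_, h⟩
  rw [trace_conj_T_pow]
  norm_num

lemma sl2_S_mul_S : (ModularGroup.S : SL(2, ℤ)) * ModularGroup.S = -1 := by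
  apply Subtype.ext
  simp only [Matrix.SpecialLinearGroup.coe_mul, ModularGroup.coe_S,
    Matrix.SpecialLinearGroup.coe_neg]
  ext i j
  fin_cases i <;> fin_cases j <;> simp [Matrix.mul_apply, Fin.sum_univ_two]

lemma sl2_ST_cube :
    ((ModularGroup.S : SL(2, ℤ)) * ModularGroup.T) * (ModularGroup.S * ModularGroup.T)
      * (ModularGroup.S * ModularGroup.T) = -1 := by
  apply Subtype.ext
  simp only [Matrix.SpecialLinearGroup.coe_mul, ModularGroup.coe_S, ModularGroup.coe_T,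
    Matrix.SpecialLinearGroup.coe_neg]
  ext i j
  fin_cases i <;> fin_cases j <;> simp [Matrix.mul_apply, Fin.sum_univ_two]

lemma sl2_neg_one_central (g : SL(2, ℤ)) : (-1 : SL(2, ℤ)) * g = g * (-1) := by
  ext i j
  simp

lemma sl2_neg_one_sq : (-1 : SL(2, ℤ)) * (-1) = 1 := by
  ext i j
  simp

/-- The bound for subgroups of `SL(2, ℤ)` containing `-1`. -/
theorem parabolicHoms_bound (Γ : Subgroup SL(2, ℤ)) [Γ.FiniteIndex] (hneg : (-1 : SL(2, ℤ)) ∈ Γ)
    [Fintype (SL(2, ℤ) ⧸ Γ)] [DecidableEq (SL(2, ℤ) ⧸ Γ)] :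
    FiniteDimensional ℂ (ModularCurve.Period.parabolicHoms ℂ Γ ℂ) ∧
      6 * finrank ℂ (ModularCurve.Period.parabolicHoms ℂ Γ ℂ)
        + 3 * Nat.card (MulAction.fixedBy (SL(2, ℤ) ⧸ Γ) ModularGroup.S)
        + 4 * Nat.card (MulAction.fixedBy (SL(2, ℤ) ⧸ Γ) (ModularGroup.S * ModularGroup.T))
        + 6 * Nat.card (MulAction.orbitRel.Quotient (Subgroup.zpowers ModularGroup.T)
            (SL(2, ℤ) ⧸ Γ))
        ≤ 12 + Nat.card (SL(2, ℤ) ⧸ Γ) := by
  have hSx : ∀ x : SL(2, ℤ) ⧸ Γ, ModularGroup.S • ModularGroup.S • x = x := by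
    intro x
    obtain ⟨g, rfl⟩ := QuotientGroup.mk_surjective x
    rw [smul_smul, sl2_S_mul_S]
    show (((-1 : SL(2, ℤ)) * g : SL(2, ℤ)) : SL(2, ℤ) ⧸ Γ) = g
    rw [sl2_neg_one_central, QuotientGroup.eq]
    simpa using hneg
  have hRx : ∀ x : SL(2, ℤ) ⧸ Γ, (ModularGroup.S * ModularGroup.T) •
      (ModularGroup.S * ModularGroup.T) • (ModularGroup.S * ModularGroup.T) • x = x := by
    intro x
    obtain ⟨g, rfl⟩ := QuotientGroup.mk_surjective x
    rw [smul_smul, smul_smul, sl2_ST_cube]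
    show (((-1 : SL(2, ℤ)) * g : SL(2, ℤ)) : SL(2, ℤ) ⧸ Γ) = g
    rw [sl2_neg_one_central, QuotientGroup.eq]
    simpa using hneg
  have hL4 := card_orbT_le (X := SL(2, ℤ) ⧸ Γ) ModularGroup.S
    (ModularGroup.S * ModularGroup.T) ModularGroup.T
    SpecialLinearGroup.SL2Z_generators rfl hSx hRx
  obtain ⟨hfd, hb⟩ := absPar_bound Γ ModularGroup.S ModularGroup.T (-1) sl2_S_mul_S sl2_ST_cube
    sl2_neg_one_central hneg sl2_neg_one_sq SpecialLinearGroup.SL2Z_generators hL4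
  have hle := parabolicHoms_le_absPar Γ
  have hfd' : FiniteDimensional ℂ (ModularCurve.Period.parabolicHoms ℂ Γ ℂ) :=
    FiniteDimensional.of_injective (Submodule.inclusion hle) (Submodule.inclusion_injective hle)
  refine ⟨hfd', ?_⟩
  have h1 : finrank ℂ (ModularCurve.Period.parabolicHoms ℂ Γ ℂ)
      ≤ finrank ℂ (absPar Γ ModularGroup.T) := Submodule.finrank_mono hle
  have h2 : Nat.card (MulAction.fixedBy (SL(2, ℤ) ⧸ Γ) ModularGroup.S)
      = Fintype.card {x : SL(2, ℤ) ⧸ Γ // ModularGroup.S • x = x} := by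
    rw [← Nat.card_eq_fintype_card]
    rfl
  have h3 : Nat.card (MulAction.fixedBy (SL(2, ℤ) ⧸ Γ) (ModularGroup.S * ModularGroup.T))
      = Fintype.card {x : SL(2, ℤ) ⧸ Γ // (ModularGroup.S * ModularGroup.T) • x = x} := by
    rw [← Nat.card_eq_fintype_card]
    rfl
  have h4 : Nat.card (SL(2, ℤ) ⧸ Γ) = Fintype.card (SL(2, ℤ) ⧸ Γ) := Nat.card_eq_fintype_card
  have h5 : Nat.card (MulAction.orbitRel.Quotient (Subgroup.zpowers ModularGroup.T)
      (SL(2, ℤ) ⧸ Γ)) = Nat.card (OrbT ModularGroup.T (SL(2, ℤ) ⧸ Γ)) := rfl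
  omega

end SL2

end Fermat.Agent.S21
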