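/-
S21 (D1): `dim Hom_par(Γ₀(N), ℂ) ≤ 2 * genusFormula N`.
-/
import Mathlib
import Fermat.Agent.S21.GroupSL2
import Fermat.Agent.S20.Cosets

set_option autoImplicit false

noncomputable section

namespace Fermat.Agent.S21

open Module CongruenceSubgroup
open scoped MatrixGroups

lemma neg_one_mem_Gamma0 (N : ℕ) : (-1 : SL(2, ℤ)) ∈ Gamma0 N := by
  rw [Gamma0_mem]
  simp

/-- (D1) the parabolic homomorphisms of `Γ₀(N)` form a finite-dimensional space. -/
theorem finiteDimensional_parabolicHoms (N : ℕ) [NeZero N] :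
    FiniteDimensional ℂ (ModularCurve.Period.parabolicHoms ℂ (Gamma0 N) ℂ) := by
  classical
  letI : Fintype (SL(2, ℤ) ⧸ Gamma0 N) := Fintype.ofFinite _
  exact (parabolicHoms_bound (Gamma0 N) (neg_one_mem_Gamma0 N)).1

/-- (D1) the combinatorial form of the bound. -/
theorem finrank_parabolicHoms_counts (N : ℕ) [NeZero N] :
    6 * finrank ℂ (ModularCurve.Period.parabolicHoms ℂ (Gamma0 N) ℂ)
        + 3 * ModularCurve.nuTwo N + 4 * ModularCurve.nuThree N + 6 * ModularCurve.cuspCount N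
        ≤ 12 + ModularCurve.dedekindPsi N := by
  classical
  letI : Fintype (SL(2, ℤ) ⧸ Gamma0 N) := Fintype.ofFinite _
  have h := (parabolicHoms_bound (Gamma0 N) (neg_one_mem_Gamma0 N)).2
  have h1 := Fermat.Agent.S20.card_cosetX N
  have h2 := Fermat.Agent.S20.card_fixedBy_S N
  have h3 := Fermat.Agent.S20.card_fixedBy_ST N
  have h4 := Fermat.Agent.S20.card_orbits_T N
  simp only [Fermat.Agent.S20.CosetX] at h1 h2 h3 h4
  rw [h1, h2, h3, h4] at h
  exact h

/-- (D1) `dim Hom_par(Γ₀(N), ℂ) ≤ 2 g(N)`. -/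
theorem finrank_parabolicHoms_le (N : ℕ) [NeZero N] :
    (finrank ℂ (ModularCurve.Period.parabolicHoms ℂ (Gamma0 N) ℂ) : ℚ)
      ≤ 2 * ModularCurve.genusFormula N := by
  have h := finrank_parabolicHoms_counts N
  have h' : (6 * finrank ℂ (ModularCurve.Period.parabolicHoms ℂ (Gamma0 N) ℂ)
        + 3 * ModularCurve.nuTwo N + 4 * ModularCurve.nuThree N + 6 * ModularCurve.cuspCount N : ℚ)
        ≤ 12 + ModularCurve.dedekindPsi N := by
    exact_mod_cast h
  unfold ModularCurve.genusFormula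
  linarith

end Fermat.Agent.S21
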