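import Fermat.Agent.S21.Primitive
import Mathlib.NumberTheory.ModularForms.Cusps

/-!
# S21 (B): the period homomorphism of a cusp form kills parabolic elements
-/

set_option autoImplicit false

open Complex Filter Function Metric Set CongruenceSubgroup Matrix.SpecialLinearGroup
open UpperHalfPlane hiding I
open scoped Real Topology Manifold MatrixGroups ModularForm Pointwise

namespace Fermat.Agent.S21

/-- Upper triangular elements of `SL(2, ℤ)` act on `ℍ` by integer translations. -/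
theorem smul_eq_vadd_of_apply_one_zero_eq_zero (h : SL(2, ℤ)) (h10 : h 1 0 = 0) (w : ℍ) :
    h • w = (((h 0 1 * h 1 1 : ℤ) : ℝ)) +ᵥ w := by
  have hdet : h 0 0 * h 1 1 - h 0 1 * h 1 0 = 1 := by
    have := h.det_coe
    rwa [Matrix.det_fin_two] at this
  rw [h10, mul_zero, sub_zero] at hdet
  have hcases : (h 0 0 = 1 ∧ h 1 1 = 1) ∨ (h 0 0 = -1 ∧ h 1 1 = -1) :=
    Int.mul_eq_one_iff_eq_one_or_neg_one.mp hdet
  apply UpperHalfPlane.ext
  rw [UpperHalfPlane.coe_specialLinearGroup_apply, UpperHalfPlane.coe_vadd]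
  simp only [algebraMap_int_eq, Int.coe_castRingHom, h10, Int.cast_zero]
  rcases hcases with ⟨h00, h11⟩ | ⟨h00, h11⟩
  · simp only [h00, h11, Int.cast_one, mul_one]
    push_cast
    ring
  · simp only [h00, h11, Int.cast_neg, Int.cast_one]
    push_cast
    ring

/-- An element of `SL(2, ℤ)` with `trace ^ 2 = 4` is conjugate in `SL(2, ℤ)` to an element acting
on `ℍ` by an integer translation. -/
theorem exists_conj_translation (γ : SL(2, ℤ))
    (hγ : (γ : Matrix (Fin 2) (Fin 2) ℤ).trace ^ 2 = 4) :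
    ∃ (δ : SL(2, ℤ)) (m : ℤ), ∀ w : ℍ, γ • (δ • w) = δ • ((m : ℝ) +ᵥ w) := by
  by_cases hc : γ 1 0 = 0
  · exact ⟨1, γ 0 1 * γ 1 1, fun w => by
      simpa using smul_eq_vadd_of_apply_one_zero_eq_zero γ hc w⟩
  -- `γ` is parabolic
  set g : GL (Fin 2) ℝ := mapGL ℝ γ with hg
  have hg10 : g 1 0 ≠ 0 := by
    simp only [hg, mapGL_coe_matrix, map_apply_coe, RingHom.mapMatrix_apply,
      Matrix.map_apply, ne_eq, algebraMap_int_eq, Int.coe_castRingHom, Int.cast_eq_zero]
    exact hc
  have hpar : g.IsParabolic := by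
    refine ⟨?_, ?_⟩
    · rintro ⟨a, ha⟩
      apply hg10
      have := congrFun (congrFun ha 1) 0
      simpa using this.symm
    · rw [Matrix.discr_fin_two]
      have h1 : (g : Matrix (Fin 2) (Fin 2) ℝ).det = 1 := by
        rw [← Matrix.GeneralLinearGroup.val_det_apply]; simp [hg]
      have h2 : (g : Matrix (Fin 2) (Fin 2) ℝ).trace =
          ((γ : Matrix (Fin 2) (Fin 2) ℤ).trace : ℝ) := by
        simp [hg, Matrix.trace_fin_two]
      rw [h1, h2]
      have : (((γ : Matrix (Fin 2) (Fin 2) ℤ).trace : ℝ)) ^ 2 = 4 := by exact_mod_cast hγ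
      rw [this]; norm_num
  have hfix : g • g.parabolicFixedPoint = g.parabolicFixedPoint := hpar.smul_eq_self_iff.mpr rfl
  have hcusp : IsCusp g.parabolicFixedPoint 𝒮ℒ := ⟨g, ⟨γ, rfl⟩, hpar, hfix⟩
  obtain ⟨δ, hδ⟩ := isCusp_SL2Z_iff'.mp hcusp
  set h : SL(2, ℤ) := δ⁻¹ * γ * δ with hh
  have hh_inf : (mapGL ℝ h : GL (Fin 2) ℝ) • (OnePoint.infty : OnePoint ℝ) = OnePoint.infty := by
    rw [hh, map_mul, map_mul, mul_smul, mul_smul, ← hδ, ← hg, hfix, hδ, ← mul_smul, ← map_mul]
    simp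
  have hh10 : h 1 0 = 0 := by
    have := OnePoint.smul_infty_eq_self_iff.mp hh_inf
    simpa using this
  refine ⟨δ, h 0 1 * h 1 1, fun w => ?_⟩
  rw [← smul_eq_vadd_of_apply_one_zero_eq_zero h hh10 w, ← mul_smul, ← mul_smul, hh]
  congr 1
  group

/-- Real translations preserve the filter `atImInfty`. -/
theorem tendsto_vadd_atImInfty (x : ℝ) :
    Tendsto (fun w : ℍ => x +ᵥ w) atImInfty atImInfty := by
  rw [atImInfty, tendsto_comap_iff]
  have : (UpperHalfPlane.im ∘ fun w : ℍ => x +ᵥ w) = UpperHalfPlane.im := by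
    funext w; simp
  rw [this]
  exact tendsto_comap

open ModularCurve ModularCurve.Period

/-- **(B)** The period of an equivariant primitive vanishes on elements with `trace ^ 2 = 4`. -/
theorem period_eq_zero_of_trace_sq {N : ℕ} {f : CuspForm (Gamma0 N) 2} {F : ℍ → ℂ}
    (hF : HasEquivariantPrimitive N f F) (γ : Gamma0 N)
    (hγ : (((γ : SL(2, ℤ)) : Matrix (Fin 2) (Fin 2) ℤ)).trace ^ 2 = 4) :
    hF.2.2.1.period γ = 0 := by
  obtain ⟨δ, m, hδ⟩ := exists_conj_translation (γ : SL(2, ℤ)) hγ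
  obtain ⟨L, hL⟩ := hF.2.2.2 δ
  have h1 : ∀ w : ℍ, F (δ • ((m : ℝ) +ᵥ w)) - F (δ • w) = hF.2.2.1.period γ := by
    intro w
    rw [← hδ w]
    exact hF.2.2.1.sub_eq_period γ (δ • w)
  have h2 : Tendsto (fun w : ℍ => F (δ • ((m : ℝ) +ᵥ w)) - F (δ • w)) atImInfty (𝓝 (L - L)) :=
    (hL.comp (tendsto_vadd_atImInfty (m : ℝ))).sub hL
  have h3 : Tendsto (fun _ : ℍ => hF.2.2.1.period γ) atImInfty (𝓝 (L - L)) := by
    refine h2.congr fun w => h1 w
  have h4 := tendsto_nhds_unique h3 tendsto_const_nhds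
  rw [sub_self] at h4
  exact h4.symm

/-- Uniqueness: the period map is computed by any equivariant primitive. -/
theorem periodMap_eq_periodHom (N : ℕ) (f : CuspForm (Gamma0 N) 2) {F : ℍ → ℂ}
    (hF : HasEquivariantPrimitive N f F) : periodMap N f = hF.2.2.1.periodHom := by
  obtain ⟨F₀, h₀, e⟩ := periodMap_def N f hF
  rw [e]
  refine AddMonoidHom.ext fun γ => ?_
  show h₀.2.2.1.period (Additive.toMul γ) = hF.2.2.1.period (Additive.toMul γ)
  unfold IsEquivariantPrimitive.period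
  have := sub_eq_sub_of_hasDerivAt h₀.1 hF.1
    (((Additive.toMul γ : Gamma0 N) : SL(2, ℤ)) • UpperHalfPlane.I) UpperHalfPlane.I
  linear_combination this

theorem periodMap_apply (N : ℕ) (f : CuspForm (Gamma0 N) 2) {F : ℍ → ℂ}
    (hF : HasEquivariantPrimitive N f F) (γ : Gamma0 N) :
    periodMap N f (Additive.ofMul γ) = F ((γ : SL(2, ℤ)) • UpperHalfPlane.I) - F UpperHalfPlane.I := by
  rw [periodMap_eq_periodHom N f hF]
  rfl

/-- **(B)** The period map lands in the parabolic homomorphisms. -/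
theorem periodMap_mem_parabolicHoms (N : ℕ) [NeZero N] (f : CuspForm (Gamma0 N) 2) :
    periodMap N f ∈ parabolicHoms ℂ (Gamma0 N) ℂ := by
  obtain ⟨F, hF⟩ := exists_hasEquivariantPrimitive N f
  rw [mem_parabolicHoms_iff, periodMap_eq_periodHom N f hF]
  intro γ hγ
  exact period_eq_zero_of_trace_sq hF γ hγ

/-- sum of equivariant primitives -/
theorem hasEquivariantPrimitive_add {N : ℕ} {f g : CuspForm (Gamma0 N) 2} {F G : ℍ → ℂ}
    (hF : HasEquivariantPrimitive N f F) (hG : HasEquivariantPrimitive N g G) :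
    HasEquivariantPrimitive N (f + g) (fun z => F z + G z) := by
  refine ⟨fun τ => ?_, ?_, fun γ => ?_, fun δ => ?_⟩
  · exact (hF.1 τ).add (hG.1 τ)
  · simpa using hF.2.1.add hG.2.1
  · obtain ⟨c, hc⟩ := hF.2.2.1 γ
    obtain ⟨d, hd⟩ := hG.2.2.1 γ
    exact ⟨c + d, fun z => by rw [← hc z, ← hd z]; ring⟩
  · obtain ⟨L, hL⟩ := hF.2.2.2 δ
    obtain ⟨M, hM⟩ := hG.2.2.2 δ
    exact ⟨L + M, hL.add hM⟩

/-- scalar multiple of an equivariant primitive -/
theorem hasEquivariantPrimitive_smul {N : ℕ} {f : CuspForm (Gamma0 N) 2} {F : ℍ → ℂ}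
    (hF : HasEquivariantPrimitive N f F) (c : ℂ) :
    HasEquivariantPrimitive N (c • f) (fun z => c * F z) := by
  refine ⟨fun τ => ?_, ?_, fun γ => ?_, fun δ => ?_⟩
  · exact (hF.1 τ).const_mul c
  · simpa using hF.2.1.const_mul c
  · obtain ⟨d, hd⟩ := hF.2.2.1 γ
    exact ⟨c * d, fun z => by rw [← hd z]; ring⟩
  · obtain ⟨L, hL⟩ := hF.2.2.2 δ
    exact ⟨c * L, hL.const_mul c⟩

/-- **(A)** The period map is linear. -/
theorem existsPeriodMapLinear (N : ℕ) [NeZero N] : ExistsPeriodMapLinear N := by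
  refine ⟨{ toFun := periodMap N, map_add' := fun f g => ?_, map_smul' := fun c f => ?_ },
    fun f => rfl⟩
  · obtain ⟨F, hF⟩ := exists_hasEquivariantPrimitive N f
    obtain ⟨G, hG⟩ := exists_hasEquivariantPrimitive N g
    refine AddMonoidHom.ext fun γ => ?_
    show periodMap N (f + g) (Additive.ofMul (Additive.toMul γ)) =
      periodMap N f (Additive.ofMul (Additive.toMul γ)) +
        periodMap N g (Additive.ofMul (Additive.toMul γ))
    rw [periodMap_apply N _ (hasEquivariantPrimitive_add hF hG), periodMap_apply N _ hF,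
      periodMap_apply N _ hG]
    ring
  · obtain ⟨F, hF⟩ := exists_hasEquivariantPrimitive N f
    refine AddMonoidHom.ext fun γ => ?_
    show periodMap N (c • f) (Additive.ofMul (Additive.toMul γ)) =
      c • periodMap N f (Additive.ofMul (Additive.toMul γ))
    rw [periodMap_apply N _ (hasEquivariantPrimitive_smul hF c), periodMap_apply N _ hF,
      smul_eq_mul]
    ring

/-- The value of `periodHomPair`. -/
theorem periodHomPair_apply (N : ℕ) [NeZero N] (f g : CuspForm (Gamma0 N) 2) :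
    periodHomPair N (f, g) =
      (periodMap N f + charInvolution N ℂ ℂ (periodMap N f)) +
        (periodMap N g - charInvolution N ℂ ℂ (periodMap N g)) := by
  obtain ⟨pml, hpml, e⟩ := periodHomPair_def N (existsPeriodMapLinear N)
  rw [e]
  simp [LinearMap.coprod_apply, hpml]

/-- **(B)** The range of `periodHomPair` is contained in the parabolic homomorphisms. -/
theorem range_periodHomPair_le (N : ℕ) [NeZero N] :
    LinearMap.range (periodHomPair N) ≤ parabolicHoms ℂ (Gamma0 N) ℂ := by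
  rintro _ ⟨⟨f, g⟩, rfl⟩
  rw [periodHomPair_apply]
  have hf := periodMap_mem_parabolicHoms N f
  have hg := periodMap_mem_parabolicHoms N g
  exact Submodule.add_mem _
    (Submodule.add_mem _ hf (charInvolution_mem_parabolicHoms N ℂ ℂ hf))
    (Submodule.sub_mem _ hg (charInvolution_mem_parabolicHoms N ℂ ℂ hg))

end Fermat.Agent.S21
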