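import Fermat.Agent.S21.Parabolic

/-!
# S21: assembly of the Eichler–Shimura statement from its pieces
-/

set_option autoImplicit false

open CongruenceSubgroup ModularCurve ModularCurve.Period
open scoped MatrixGroups

namespace Fermat.Agent.S21

/-- The cusp forms are finite-dimensional as soon as `periodHomPair` is injective and the
parabolic homomorphisms are finite-dimensional. -/
theorem finiteDimensional_cuspForm_of_injective (N : ℕ) [NeZero N]
    (hinj : Function.Injective (periodHomPair N))
    (hfin : FiniteDimensional ℂ (parabolicHoms ℂ (Gamma0 N) ℂ)) :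
    FiniteDimensional ℂ (CuspForm (Gamma0 N) 2) := by
  have hprod : FiniteDimensional ℂ (CuspForm (Gamma0 N) 2 × CuspForm (Gamma0 N) 2) := by
    let φ : (CuspForm (Gamma0 N) 2 × CuspForm (Gamma0 N) 2) →ₗ[ℂ] parabolicHoms ℂ (Gamma0 N) ℂ :=
      (periodHomPair N).codRestrict _ fun x => range_periodHomPair_le N ⟨x, rfl⟩
    have hφ : Function.Injective φ := fun x y hxy => hinj (congrArg Subtype.val hxy)
    exact FiniteDimensional.of_injective φ hφ
  exact FiniteDimensional.of_injective
    (LinearMap.inl ℂ (CuspForm (Gamma0 N) 2) (CuspForm (Gamma0 N) 2)) LinearMap.inl_injective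

/-- Assembly: injectivity + dimension bound give the Eichler–Shimura statement. -/
theorem eichlerShimura_of_pieces (N : ℕ) [NeZero N]
    (hinj : Function.Injective (periodHomPair N))
    (hfin : FiniteDimensional ℂ (parabolicHoms ℂ (Gamma0 N) ℂ))
    (hdim : Module.finrank ℂ (parabolicHoms ℂ (Gamma0 N) ℂ)
      ≤ 2 * Module.finrank ℂ (CuspForm (Gamma0 N) 2)) :
    Function.Injective (periodHomPair N)
      ∧ LinearMap.range (periodHomPair N) = parabolicHoms ℂ (Gamma0 N) ℂ := by
  refine ⟨hinj, ?_⟩
  haveI := hfin
  haveI := finiteDimensional_cuspForm_of_injective N hinj hfin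
  have h1 : Module.finrank ℂ (LinearMap.range (periodHomPair N)) =
      2 * Module.finrank ℂ (CuspForm (Gamma0 N) 2) := by
    rw [LinearMap.finrank_range_of_inj hinj, Module.finrank_prod]
    ring
  exact Submodule.eq_of_le_of_finrank_le (range_periodHomPair_le N) (by rw [h1]; exact hdim)

end Fermat.Agent.S21
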