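import Mathlib.Analysis.Complex.AbsMax
import Mathlib.Analysis.Calculus.MeanValue
import Mathlib.Analysis.SpecialFunctions.ExpDeriv

/-!
# A maximum principle for the real part of a holomorphic function
-/

set_option autoImplicit false

open Filter Topology

namespace Fermat.Agent.S21

/-- **Maximum principle for the real part.** If `K` is holomorphic on the open preconnected set
`U` and `re K` attains its maximum over `U` at `c ∈ U`, then `K` is constant on `U`. -/
theorem reInv_eq_of_isMaxOn_re {K : ℂ → ℂ} {U : Set ℂ} (hU : IsOpen U) (hUc : IsPreconnected U)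
    (hK : DifferentiableOn ℂ K U) {c : ℂ} (hc : c ∈ U)
    (hmax : ∀ z ∈ U, (K z).re ≤ (K c).re) :
    ∀ z ∈ U, K z = K c := by
  have hexp : DifferentiableOn ℂ (fun z => Complex.exp (K z)) U := hK.cexp
  have hmax' : IsMaxOn (norm ∘ fun z => Complex.exp (K z)) U c := by
    intro z hz
    simp only [Function.comp, Complex.norm_exp]
    exact Real.exp_le_exp.mpr (hmax z hz)
  have heq := Complex.eqOn_of_isPreconnected_of_isMaxOn_norm hUc hU hexp hc hmax'
  have hderiv : U.EqOn (deriv K) 0 := by
    intro z hz
    have hKz : HasDerivAt K (deriv K z) z := (hK.differentiableAt (hU.mem_nhds hz)).hasDerivAt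
    have h1 : HasDerivAt (fun z => Complex.exp (K z)) (Complex.exp (K z) * deriv K z) z :=
      hKz.cexp
    have h2 : HasDerivAt (fun z => Complex.exp (K z)) 0 z := by
      have : (fun z => Complex.exp (K z)) =ᶠ[𝓝 z] fun _ => Complex.exp (K c) := by
        filter_upwards [hU.mem_nhds hz] with w hw using heq hw
      exact (hasDerivAt_const z _).congr_of_eventuallyEq this
    have h3 := h1.unique h2
    simpa [Complex.exp_ne_zero] using h3
  intro z hz
  exact hU.is_const_of_deriv_eq_zero hUc hK hderiv hz hc

/-- A holomorphic function on an open preconnected set whose real part is constant is constant. -/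
theorem reInv_eq_of_re_eq {K : ℂ → ℂ} {U : Set ℂ} (hU : IsOpen U) (hUc : IsPreconnected U)
    (hK : DifferentiableOn ℂ K U) {c : ℂ} (hc : c ∈ U)
    (hre : ∀ z ∈ U, (K z).re = (K c).re) :
    ∀ z ∈ U, K z = K c :=
  reInv_eq_of_isMaxOn_re hU hUc hK hc fun z hz => (hre z hz).le

end Fermat.Agent.S21
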