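import Fermat.Prelude.Def_ModularCurve_PeriodHomPair
import Fermat.Prelude.Thm_Subgroup_IsArithmetic_exists_nat_mem_strictPeriods_conj
import Fermat.Agent.Lib.Period.Primitive
import Mathlib.NumberTheory.ModularForms.Basic
import Mathlib.NumberTheory.ModularForms.QExpansion
import Mathlib.NumberTheory.ModularForms.CongruenceSubgroups
import Mathlib.Analysis.Calculus.MeanValue

/-!
# S21 (A): every weight-2 cusp form on `Γ₀(N)` has an equivariant primitive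
-/

set_option autoImplicit false

open Complex Filter Function Metric Set CongruenceSubgroup
open UpperHalfPlane hiding I
open scoped Real Topology Manifold MatrixGroups ModularForm Pointwise

namespace Fermat.Agent.S21

/-- Chain rule for the Möbius action of `SL(2, ℤ)`: if `F` is a primitive of `f`, then
`F ∘ δ` is a primitive of `f ∣[2] δ`. -/
theorem hasDerivAt_comp_smul {F f : ℍ → ℂ}
    (hF : ∀ τ : ℍ, HasDerivAt (F ∘ ofComplex) (f τ) τ) (δ : SL(2, ℤ)) (τ : ℍ) :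
    HasDerivAt ((fun w : ℍ => F (δ • w)) ∘ ofComplex) ((f ∣[(2 : ℤ)] δ) τ) τ := by
  have hdet : (0 : ℝ) < ((δ : GL (Fin 2) ℝ) : Matrix (Fin 2) (Fin 2) ℝ).det := by
    rw [← Matrix.GeneralLinearGroup.val_det_apply]; simp
  have hdet1 : (((δ : GL (Fin 2) ℝ) : Matrix (Fin 2) (Fin 2) ℝ).det : ℂ) = 1 := by
    rw [← Matrix.GeneralLinearGroup.val_det_apply]; simp
  have h1 : HasDerivAt (fun z : ℂ => ((((δ : GL (Fin 2) ℝ) • ofComplex z : ℍ)) : ℂ))
      ((((δ : GL (Fin 2) ℝ) : Matrix (Fin 2) (Fin 2) ℝ).det : ℂ) /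
        denom (δ : GL (Fin 2) ℝ) τ ^ 2) τ :=
    (hasStrictDerivAt_smul hdet τ).hasDerivAt
  have h2 : HasDerivAt (F ∘ ofComplex) (f ((δ : GL (Fin 2) ℝ) • ofComplex (τ : ℂ)))
      ((((δ : GL (Fin 2) ℝ) • ofComplex (τ : ℂ) : ℍ)) : ℂ) := hF _
  have h3 := h2.comp (τ : ℂ) h1
  have e1 : ((fun w : ℍ => F (δ • w)) ∘ ofComplex) =
      (F ∘ ofComplex) ∘ (fun z : ℂ => ((((δ : GL (Fin 2) ℝ) • ofComplex z : ℍ)) : ℂ)) := by
    funext z
    simp [Function.comp, ModularGroup.sl_moeb]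
  rw [e1]
  have e2 : f ((δ : GL (Fin 2) ℝ) • ofComplex (τ : ℂ)) *
      ((((δ : GL (Fin 2) ℝ) : Matrix (Fin 2) (Fin 2) ℝ).det : ℂ) /
        denom (δ : GL (Fin 2) ℝ) τ ^ 2) = (f ∣[(2 : ℤ)] δ) τ := by
    rw [ModularForm.SL_slash_apply, hdet1, ofComplex_apply, ModularGroup.sl_moeb]
    simp only [zpow_neg, one_div]
    rfl
  rw [← e2]
  exact h3

/-- A function on `ℍ` with vanishing derivative is constant. -/
theorem eq_of_hasDerivAt_zero {G : ℍ → ℂ}
    (hG : ∀ τ : ℍ, HasDerivAt (G ∘ ofComplex) 0 τ) (z w : ℍ) : G z = G w := by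
  have hopen : IsOpen {z : ℂ | 0 < z.im} := isOpen_lt continuous_const Complex.continuous_im
  have hconn : IsPreconnected {z : ℂ | 0 < z.im} := (convex_halfSpace_im_gt 0).isPreconnected
  have hd : DifferentiableOn ℂ (G ∘ ofComplex) {z : ℂ | 0 < z.im} := fun x hx =>
    (hG ⟨x, hx⟩).differentiableAt.differentiableWithinAt
  have hd' : {z : ℂ | 0 < z.im}.EqOn (deriv (G ∘ ofComplex)) 0 := fun x hx =>
    (hG ⟨x, hx⟩).deriv
  have := hopen.is_const_of_deriv_eq_zero hconn hd hd' (x := (z : ℂ)) (y := (w : ℂ)) z.2 w.2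
  simpa using this

/-- Two primitives of the same function differ by a constant. -/
theorem sub_eq_sub_of_hasDerivAt {F G f : ℍ → ℂ}
    (hF : ∀ τ : ℍ, HasDerivAt (F ∘ ofComplex) (f τ) τ)
    (hG : ∀ τ : ℍ, HasDerivAt (G ∘ ofComplex) (f τ) τ) (z w : ℍ) :
    F z - G z = F w - G w := by
  have h : ∀ τ : ℍ, HasDerivAt ((fun x => F x - G x) ∘ ofComplex) 0 τ := by
    intro τ
    have h0 := (hF τ).sub (hG τ)
    rw [sub_self] at h0
    exact h0
  exact eq_of_hasDerivAt_zero h z w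

/-- The translate `f ∣[2] δ` of a cusp form on `Γ₀(N)` by `δ ∈ SL(2, ℤ)` is holomorphic, periodic
and zero at `i∞`. -/
theorem translate_data (N : ℕ) [NeZero N] (f : CuspForm (Gamma0 N) 2) (δ : SL(2, ℤ)) :
    ∃ h : ℝ, 0 < h ∧ MDiff ((f : ℍ → ℂ) ∣[(2 : ℤ)] δ) ∧
      Periodic (((f : ℍ → ℂ) ∣[(2 : ℤ)] δ) ∘ ofComplex) h ∧
      IsZeroAtImInfty ((f : ℍ → ℂ) ∣[(2 : ℤ)] δ) := by
  obtain ⟨M, hM, hper⟩ := Subgroup.IsArithmetic.exists_nat_mem_strictPeriods_conj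
    ((Gamma0 N : Subgroup SL(2, ℤ)) : Subgroup (GL (Fin 2) ℝ))
  have hMpos : (0 : ℝ) < M := by exact_mod_cast hM
  set g := CuspForm.translate f (Matrix.SpecialLinearGroup.mapGL ℝ δ) with hg
  have hmem : (M : ℝ) ∈ (ConjAct.toConjAct (Matrix.SpecialLinearGroup.mapGL ℝ δ)⁻¹ •
      ((Gamma0 N : Subgroup SL(2, ℤ)) : Subgroup (GL (Fin 2) ℝ))).strictPeriods := by
    have := hper δ⁻¹
    simpa using this
  have hcoe : (g : ℍ → ℂ) = (f : ℍ → ℂ) ∣[(2 : ℤ)] δ := rfl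
  refine ⟨M, hMpos, ?_, ?_, ?_⟩
  · rw [← hcoe]; exact g.holo'
  · rw [← hcoe]; exact SlashInvariantFormClass.periodic_comp_ofComplex g hmem
  · rw [← hcoe]
    have hcusp := Subgroup.isCusp_of_mem_strictPeriods hMpos hmem
    exact OnePoint.isZeroAt_infty_iff.mp (g.zero_at_cusps' hcusp)

/-- slash invariance of a cusp form on `Γ₀(N)` under `γ ∈ Γ₀(N)` (as element of `SL(2, ℤ)`). -/
theorem slash_eq_self (N : ℕ) (f : CuspForm (Gamma0 N) 2) (γ : Gamma0 N) :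
    (f : ℍ → ℂ) ∣[(2 : ℤ)] (γ : SL(2, ℤ)) = f := by
  rw [ModularForm.SL_slash]
  exact SlashInvariantForm.slash_action_eqn f _ ⟨γ, γ.2, rfl⟩

/-- **(A)** Every weight-2 cusp form on `Γ₀(N)` has an equivariant primitive. -/
theorem exists_hasEquivariantPrimitive (N : ℕ) [NeZero N] (f : CuspForm (Gamma0 N) 2) :
    ∃ F : ℍ → ℂ, ModularCurve.HasEquivariantPrimitive N f F := by
  obtain ⟨h, hh, hhol, hper, hzero⟩ := translate_data N f 1
  have h1 : (f : ℍ → ℂ) ∣[(2 : ℤ)] (1 : SL(2, ℤ)) = f := SlashAction.slash_one _ _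
  rw [h1] at hhol hper hzero
  obtain ⟨F, -, hFderiv, -, hFzero⟩ := Period.exists_periodic_primitive hh hhol hper hzero
  refine ⟨F, hFderiv, hFzero, ?_, ?_⟩
  · intro γ
    refine ⟨F ((γ : SL(2, ℤ)) • UpperHalfPlane.I) - F UpperHalfPlane.I, fun z => ?_⟩
    have hd : ∀ τ : ℍ, HasDerivAt ((fun w : ℍ => F ((γ : SL(2, ℤ)) • w)) ∘ ofComplex) (f τ) τ := by
      intro τ
      have h2 := hasDerivAt_comp_smul hFderiv (γ : SL(2, ℤ)) τ
      rwa [slash_eq_self N f γ] at h2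
    exact sub_eq_sub_of_hasDerivAt hd hFderiv z UpperHalfPlane.I
  · intro δ
    obtain ⟨h', hh', hhol', hper', hzero'⟩ := translate_data N f δ
    obtain ⟨G, -, hGderiv, -, hGzero⟩ := Period.exists_periodic_primitive hh' hhol' hper' hzero'
    have hd : ∀ τ : ℍ, HasDerivAt ((fun w : ℍ => F (δ • w)) ∘ ofComplex)
        (((f : ℍ → ℂ) ∣[(2 : ℤ)] δ) τ) τ := hasDerivAt_comp_smul hFderiv δ
    refine ⟨F (δ • UpperHalfPlane.I) - G UpperHalfPlane.I, ?_⟩
    have e : (fun w : ℍ => F (δ • w)) =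
        fun w => G w + (F (δ • UpperHalfPlane.I) - G UpperHalfPlane.I) := by
      funext w
      have h3 := sub_eq_sub_of_hasDerivAt hd hGderiv w UpperHalfPlane.I
      linear_combination h3
    rw [e]
    have h4 : Tendsto G atImInfty (𝓝 0) := hGzero
    simpa using h4.add_const (F (δ • UpperHalfPlane.I) - G UpperHalfPlane.I)

end Fermat.Agent.S21
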